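import Fermat.Agent.S22.Defs
import Fermat.Prelude.Thm_ModularForm_sturm_bound_Gamma0
import Fermat.Prelude.Thm_CongruenceSubgroup_one_mem_strictPeriods_Gamma0

/-!
# S22, part C: the algebraic criterion, and small weights
-/

set_option autoImplicit false

namespace Fermat.Agent.S22

theorem comp_mem_of_mem_adjoin {V : Type*} [AddCommGroup V] [Module ℂ V]
    (𝒢 : Set (Module.End ℂ V)) (Λ : Submodule ℤ (Module.Dual ℂ V))
    (hstab : ∀ t ∈ 𝒢, ∀ l ∈ Λ, l ∘ₗ t ∈ Λ) (t : Module.End ℂ V) (ht : t ∈ Algebra.adjoin ℤ 𝒢) :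
    ∀ l ∈ Λ, l ∘ₗ t ∈ Λ := by
  induction ht using Algebra.adjoin_induction with
  | mem x hx => exact hstab x hx
  | algebraMap r =>
    intro l hl
    have : l ∘ₗ (algebraMap ℤ (Module.End ℂ V) r) = r • l := by
      ext v
      simp [Algebra.algebraMap_eq_smul_one]
    rw [this]
    exact Λ.smul_mem r hl
  | add x y _ _ hx hy =>
    intro l hl
    rw [LinearMap.comp_add]
    exact Λ.add_mem (hx l hl) (hy l hl)
  | mul x y _ _ hx hy =>
    intro l hl
    have : l ∘ₗ (x * y) = (l ∘ₗ x) ∘ₗ y := by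
      ext v
      simp
    rw [this]
    exact hy _ (hx l hl)

theorem finite_of_lattice {V : Type*} [AddCommGroup V] [Module ℂ V] (𝒢 : Set (Module.End ℂ V))
    (Λ : Submodule ℤ (Module.Dual ℂ V)) (hfg : Λ.FG)
    (hstab : ∀ t ∈ 𝒢, ∀ l ∈ Λ, l ∘ₗ t ∈ Λ)
    (hsep : ∀ f : V, (∀ l ∈ Λ, l f = 0) → f = 0) :
    Module.Finite ℤ (Algebra.adjoin ℤ 𝒢) := by
  haveI : Module.Finite ℤ Λ := Module.Finite.iff_fg.mpr hfg
  have hst := comp_mem_of_mem_adjoin 𝒢 Λ hstab
  let Φ : (Algebra.adjoin ℤ 𝒢) →ₗ[ℤ] (Λ →ₗ[ℤ] Λ) :=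
    { toFun := fun t =>
        { toFun := fun l => ⟨(l : Module.Dual ℂ V) ∘ₗ (t : Module.End ℂ V), hst t t.2 l l.2⟩
          map_add' := fun l l' => by
            apply Subtype.ext
            simp [LinearMap.add_comp]
          map_smul' := fun r l => by
            apply Subtype.ext
            ext v
            simp }
      map_add' := fun t t' => by
        ext l v
        simp
      map_smul' := fun r t => by
        ext l v
        simp }
  have hinj : Function.Injective Φ := by
    rw [← LinearMap.ker_eq_bot, LinearMap.ker_eq_bot']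
    intro t ht
    apply Subtype.ext
    ext f
    apply hsep
    intro l hl
    have h1 := congrArg (fun F : Λ →ₗ[ℤ] Λ => ((F ⟨l, hl⟩ : Λ) : Module.Dual ℂ V) f) ht
    simpa [Φ] using h1
  exact Module.Finite.of_injective Φ hinj

theorem cuspForm_eq_zero_of_le_one (N : ℕ) [NeZero N] {k : ℤ} (hk : k ≤ 1)
    (f : CuspForm (CongruenceSubgroup.Gamma0 N) k) : f = 0 := by
  have hz : (ModularFormClass.modularForm f :
      ModularForm (CongruenceSubgroup.Gamma0 N) k) = 0 := by
    rcases hk.lt_or_eq with hk0 | rfl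
    · apply ModularForm.sturm_bound_Gamma0 N
      intro n hn
      have hn0 : n = 0 := by
        have h1 : k * ((CongruenceSubgroup.Gamma0 N).index : ℤ) ≤ 0 :=
          mul_nonpos_of_nonpos_of_nonneg (by omega) (by positivity)
        have : (k * ((CongruenceSubgroup.Gamma0 N).index : ℤ)).toNat = 0 := by
          omega
        rw [this] at hn
        simpa using hn
      subst hn0
      exact CuspFormClass.qExpansion_coeff_zero f one_pos
        (CongruenceSubgroup.one_mem_strictPeriods_Gamma0 N)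
    · apply ModularForm.eq_zero_of_neg_one_mem _ odd_one
      refine ⟨-1, ?_, ?_⟩
      · rw [SetLike.mem_coe, CongruenceSubgroup.Gamma0_mem]
        simp
      · ext i j
        simp
  ext z
  have := congrArg (fun g : ModularForm (CongruenceSubgroup.Gamma0 N) k => g z) hz
  simpa using this

end Fermat.Agent.S22
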