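import Fermat.Agent.S22.Lattice

/-!
# S22, part D: the period lattice is finitely generated
-/

set_option autoImplicit false

namespace Fermat.Agent.S22

open UpperHalfPlane Filter Topology CongruenceSubgroup
open scoped MatrixGroups ModularForm Manifold

theorem Gamma0_GL_fg (N : ℕ) [NeZero N] : (Gamma0 N : Subgroup (GL (Fin 2) ℝ)).FG := by
  classical
  have h1 : Group.FG SL(2, ℤ) :=
    ⟨⟨{ModularGroup.S, ModularGroup.T}, by
      simpa using SpecialLinearGroup.SL2Z_generators⟩⟩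
  have h2 : Group.FG (Gamma0 N) := Subgroup.fg_of_index_ne_zero _
  obtain ⟨S, hS⟩ := (Group.fg_iff_subgroup_fg _).mp h2
  refine ⟨S.image (Matrix.SpecialLinearGroup.mapGL ℝ), ?_⟩
  rw [Finset.coe_image, ← MonoidHom.map_closure, hS]

variable (N : ℕ) [NeZero N] (w : ℕ)

/-- the functional `f ↦ tower f m τ` -/
noncomputable def towL (m : ℕ) (τ : ℍ) : CuspForm (Gamma0 N) ((w : ℤ) + 2) →ₗ[ℂ] ℂ where
  toFun f := tower f m τ
  map_add' f g := by
    have h : tower (⇑(f + g)) = tower f + tower g := by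
      rw [FunLike.coe_add]
      exact ((isTower_cuspForm f).add (isTower_cuspForm g)).tower_eq
    rw [h]
    rfl
  map_smul' c f := by
    have h : tower (⇑(c • f)) = c • tower f := by
      rw [FunLike.coe_smul]
      exact ((isTower_cuspForm f).smul c).tower_eq
    rw [h]
    rfl

/-- the finitely generated module containing all `evL v τ`, `v` integral -/
noncomputable def evSpan (τ : ℍ) : Submodule ℤ (Module.Dual ℂ (CuspForm (Gamma0 N) ((w : ℤ) + 2))) :=
  Submodule.span ℤ (Set.range fun x : Fin (w + 1) × Fin (w + 1) =>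
    ((τ : ℂ) ^ (x.1 : ℕ)) • towL N w x.2 τ)

theorem evSpan_fg (τ : ℍ) : (evSpan N w τ).FG :=
  Submodule.fg_span (Set.finite_range _)

variable {N w}

theorem evL_mem_evSpan {v : ℂ × ℂ} (hv : IsIntVec v) (τ : ℍ) : evL N w v τ ∈ evSpan N w τ := by
  obtain ⟨X, Y, rfl⟩ := hv
  have key : evL N w ((X : ℂ), (Y : ℂ)) τ = ∑ m ∈ Finset.range (w + 1),
      ∑ i ∈ Finset.range (w - m + 1),
        ((-1) ^ m * (w.descFactorial m : ℤ) * X ^ m * (X ^ i * Y ^ (w - m - i) *
          ((w - m).choose i : ℤ))) • (((τ : ℂ) ^ i) • towL N w m τ) := by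
    ext f
    rw [evL_apply, Gfun, LinearMap.sum_apply]
    refine Finset.sum_congr rfl fun m _ => ?_
    rw [LinearMap.sum_apply]
    simp only [add_pow, LinearMap.smul_apply, zsmul_eq_mul, smul_eq_mul]
    rw [Finset.mul_sum, Finset.sum_mul]
    refine Finset.sum_congr rfl fun i _ => ?_
    simp only [towL, LinearMap.coe_mk, AddHom.coe_mk]
    push_cast
    ring
  rw [key]
  refine Submodule.sum_mem _ fun m hm => Submodule.sum_mem _ fun i hi =>
    Submodule.smul_mem _ _ (Submodule.subset_span ?_)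
  rw [Finset.mem_range] at hm hi
  exact ⟨(⟨i, by omega⟩, ⟨m, hm⟩), rfl⟩

theorem perL_one (v : ℂ × ℂ) : perL N w 1 v = 0 := by
  ext f
  rw [perL_apply (Subgroup.one_mem _) v f UpperHalfPlane.I, one_smul, act_one, sub_self]
  rfl

theorem perL_mul {g h : GL (Fin 2) ℝ} (hg : g ∈ (Gamma0 N : Subgroup (GL (Fin 2) ℝ)))
    (hh : h ∈ (Gamma0 N : Subgroup (GL (Fin 2) ℝ))) (v : ℂ × ℂ) :
    perL N w (g * h) v = perL N w g v + perL N w h (act g v) := by
  ext f
  rw [LinearMap.add_apply, perL_apply (Subgroup.mul_mem _ hg hh) v f UpperHalfPlane.I,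
    perL_apply hg v f (h • UpperHalfPlane.I), perL_apply hh _ f UpperHalfPlane.I, mul_smul,
    act_mul]
  ring

theorem perL_inv {g : GL (Fin 2) ℝ} (hg : g ∈ (Gamma0 N : Subgroup (GL (Fin 2) ℝ)))
    (v : ℂ × ℂ) : perL N w g⁻¹ v = - perL N w g (act g⁻¹ v) := by
  have h := perL_mul (w := w) (Subgroup.inv_mem _ hg) hg v
  rw [inv_mul_cancel, perL_one] at h
  exact eq_neg_of_add_eq_zero_left h.symm

variable (N w)

theorem Lat_fg : (Lat N w).FG := by
  obtain ⟨T, hT⟩ := Gamma0_GL_fg N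
  set M : Submodule ℤ (Module.Dual ℂ (CuspForm (Gamma0 N) ((w : ℤ) + 2))) :=
    evSpan N w UpperHalfPlane.I ⊔ ⨆ s ∈ T, evSpan N w (s • UpperHalfPlane.I) with hM
  have hMfg : M.FG :=
    (evSpan_fg N w _).sup (Submodule.fg_biSup T _ fun s _ => evSpan_fg N w _)
  refine hMfg.of_le ?_
  have hgen : ∀ s ∈ T, ∀ v, IsIntVec v → perL N w s v ∈ M := by
    intro s hs v hv
    have hsΓ : s ∈ (Gamma0 N : Subgroup (GL (Fin 2) ℝ)) := hT ▸ Subgroup.subset_closure hs
    refine Submodule.sub_mem _ ?_ ?_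
    · exact (le_trans (le_biSup (fun s => evSpan N w (s • UpperHalfPlane.I)) hs) le_sup_right)
        (evL_mem_evSpan hv _)
    · exact le_sup_left (a := evSpan N w UpperHalfPlane.I) (evL_mem_evSpan (isIntVec_act hsΓ hv) _)
  have hall : ∀ g ∈ Subgroup.closure (T : Set (GL (Fin 2) ℝ)),
      g ∈ (Gamma0 N : Subgroup (GL (Fin 2) ℝ)) ∧ ∀ v, IsIntVec v → perL N w g v ∈ M := by
    intro g hg
    induction hg using Subgroup.closure_induction with
    | mem s hs => exact ⟨hT ▸ Subgroup.subset_closure hs, hgen s hs⟩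
    | one => exact ⟨Subgroup.one_mem _, fun v _ => by rw [perL_one]; exact Submodule.zero_mem _⟩
    | mul g h _ _ ihg ihh =>
      refine ⟨Subgroup.mul_mem _ ihg.1 ihh.1, fun v hv => ?_⟩
      rw [perL_mul ihg.1 ihh.1]
      exact Submodule.add_mem _ (ihg.2 v hv) (ihh.2 _ (isIntVec_act ihg.1 hv))
    | inv g _ ihg =>
      refine ⟨Subgroup.inv_mem _ ihg.1, fun v hv => ?_⟩
      rw [perL_inv ihg.1]
      exact Submodule.neg_mem _ (ihg.2 _ (isIntVec_act (Subgroup.inv_mem _ ihg.1) hv))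
  rw [Lat, Submodule.span_le]
  rintro _ ⟨g, hg, v, hv, rfl⟩
  exact (hall g (hT ▸ hg)).2 v hv

end Fermat.Agent.S22
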