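import Fermat.Agent.S22.Lattice

/-!
# S22, part E: the period lattice is stable under the Hecke operators
-/

set_option autoImplicit false

namespace Fermat.Agent.S22

open UpperHalfPlane Filter Topology CongruenceSubgroup
open scoped MatrixGroups ModularForm Manifold

/-- `D • act δ⁻¹ v` is characterised by `act δ u = D • v`. -/
theorem smul_act_inv_eq {δ : GL (Fin 2) ℝ} {D : ℂ} {u v : ℂ × ℂ} (h : act δ u = D • v) :
    D • act δ⁻¹ v = u := by
  rw [← act_smul, ← h, ← act_mul, mul_inv_cancel, act_one]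

/-- `Gfun` of the tower of a sum of slashes by upper triangular matrices. -/
theorem Gfun_tower_sum_slash (w : ℕ) {ι : Type*} [Fintype ι] (δ : ι → GL (Fin 2) ℝ) {D : ℝ}
    (hdet : ∀ x, (δ x).val.det = D) (hD : 0 < D) (hup : ∀ x, δ x 1 0 = 0)
    {φ φ' : ℍ → ℂ} (hφ : HasTower φ) (hφ' : φ' = ∑ x, φ ∣[(w : ℤ) + 2] δ x) (v : ℂ × ℂ) (τ : ℍ) :
    Gfun w (tower φ') v τ = ∑ x, Gfun w (tower φ) ((D : ℂ) • act (δ x)⁻¹ v) (δ x • τ) := by
  have hJ : IsTower φ (tower φ) := hφ.isTower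
  have hpos : ∀ x, 0 < (δ x).val.det := fun x => by rw [hdet x]; exact hD
  have hJ' := fun x => hJ.slash_upper w (hpos x) (hup x)
  have hsum := IsTower.sum Finset.univ (fun x _ => hJ' x)
  rw [← hφ'] at hsum
  rw [hsum.tower_eq, Gfun_sum]
  refine Finset.sum_congr rfl fun x _ => ?_
  have hv : v = act (δ x) (act (δ x)⁻¹ v) := by
    rw [← act_mul, inv_mul_cancel, act_one]
  conv_lhs => rw [hv]
  rw [Gfun_upper w (hpos x) (hup x) hJ (hJ' x), Gfun_smul, hdet x]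

variable {N : ℕ} [NeZero N] {w : ℕ}

/-- The abstract double coset computation. -/
theorem perL_comp_eq_sum {ι : Type*} [Fintype ι] (δ : ι → GL (Fin 2) ℝ) {D : ℝ}
    (hdet : ∀ x, (δ x).val.det = D) (hD : 0 < D) (hup : ∀ x, δ x 1 0 = 0)
    (t : Module.End ℂ (CuspForm (Gamma0 N) ((w : ℤ) + 2)))
    (ht : ∀ f, (⇑(t f) : ℍ → ℂ) = ∑ x, (⇑f : ℍ → ℂ) ∣[(w : ℤ) + 2] δ x)
    {g : GL (Fin 2) ℝ} (hg : g ∈ (Gamma0 N : Subgroup (GL (Fin 2) ℝ)))
    (π : Equiv.Perm ι) (g' : ι → GL (Fin 2) ℝ)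
    (hg' : ∀ x, g' x ∈ (Gamma0 N : Subgroup (GL (Fin 2) ℝ)))
    (hmul : ∀ x, δ x * g = g' x * δ (π x)) (v : ℂ × ℂ) :
    perL N w g v ∘ₗ t = ∑ x, perL N w (g' x) ((D : ℂ) • act (δ x)⁻¹ v) := by
  ext f
  rw [LinearMap.comp_apply, LinearMap.sum_apply, perL_apply hg v (t f) UpperHalfPlane.I,
    Gfun_tower_sum_slash w δ hdet hD hup (hasTower_cuspForm f) (ht f),
    Gfun_tower_sum_slash w δ hdet hD hup (hasTower_cuspForm f) (ht f),
    ← Equiv.sum_comp π (fun x => Gfun w (tower ⇑f) ((D : ℂ) • act (δ x)⁻¹ (act g v))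
      (δ x • UpperHalfPlane.I)), ← Finset.sum_sub_distrib]
  refine Finset.sum_congr rfl fun x _ => ?_
  rw [perL_apply (hg' x) _ f (δ (π x) • UpperHalfPlane.I), ← mul_smul, ← mul_smul, hmul x,
    act_smul, ← act_mul, ← act_mul]
  have h : g * (δ (π x))⁻¹ = (δ x)⁻¹ * g' x := by
    rw [mul_inv_eq_iff_eq_mul, mul_assoc, ← hmul x, inv_mul_cancel_left]
  rw [h]

section concrete

open ModularForm
open P2MW.S_ModularForm_heckeT_slash_eq_self_of_mem_Gamma0.ModularForm.HeckeSlashInvariance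

theorem val_det_heckeMatrix {p : ℕ} (hp : p ≠ 0) (j : ℕ) :
    (heckeMatrix p j).val.det = (p : ℝ) := by
  rw [← Matrix.GeneralLinearGroup.val_det_apply, det_heckeMatrix hp]

theorem val_det_heckeDiagMatrix {p : ℕ} (hp : p ≠ 0) :
    (heckeDiagMatrix p).val.det = (p : ℝ) := by
  rw [← Matrix.GeneralLinearGroup.val_det_apply, det_heckeDiagMatrix hp]

theorem heckeMatrix_one_zero {p : ℕ} (hp : p ≠ 0) (j : ℕ) : heckeMatrix p j 1 0 = 0 := by
  simp [val_heckeMatrix hp]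

theorem heckeDiagMatrix_one_zero {p : ℕ} (hp : p ≠ 0) : heckeDiagMatrix p 1 0 = 0 := by
  simp [val_heckeDiagMatrix hp]

theorem isIntVec_smul_act_inv_heckeMatrix {p : ℕ} (hp : p ≠ 0) (j : ℕ) {v : ℂ × ℂ}
    (hv : IsIntVec v) : IsIntVec (((p : ℝ) : ℂ) • act (heckeMatrix p j)⁻¹ v) := by
  obtain ⟨X, Y, rfl⟩ := hv
  refine ⟨p * X, Y - j * X, ?_⟩
  apply smul_act_inv_eq
  ext <;> simp [act, val_heckeMatrix hp] <;> ring

theorem isIntVec_smul_act_inv_heckeDiagMatrix {p : ℕ} (hp : p ≠ 0) {v : ℂ × ℂ}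
    (hv : IsIntVec v) : IsIntVec (((p : ℝ) : ℂ) • act (heckeDiagMatrix p)⁻¹ v) := by
  obtain ⟨X, Y, rfl⟩ := hv
  refine ⟨X, p * Y, ?_⟩
  apply smul_act_inv_eq
  ext <;> simp [act, val_heckeDiagMatrix hp]

theorem perL_comp_heckeTLin_mem {p : ℕ} (hp : p.Prime) (hpN : ¬ p ∣ N) {g : GL (Fin 2) ℝ}
    (hg : g ∈ (Gamma0 N : Subgroup (GL (Fin 2) ℝ))) {v : ℂ × ℂ} (hv : IsIntVec v) :
    perL N w g v ∘ₗ CuspForm.heckeTLin ((w : ℤ) + 2) hp hpN ∈ Lat N w := by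
  haveI : Fact p.Prime := ⟨hp⟩
  have hp0 : p ≠ 0 := hp.ne_zero
  obtain ⟨g0, hg0, rfl⟩ := hg
  have hcN : (N : ℤ) ∣ g0 1 0 :=
    (ZMod.intCast_zmod_eq_zero_iff_dvd _ _).mp (CongruenceSubgroup.Gamma0_mem.mp hg0)
  choose g' hg'N hmul using heckeRep_mul hpN g0 hcN
  have hmem : ∀ x, Matrix.SpecialLinearGroup.mapGL ℝ (g' x) ∈
      (Gamma0 N : Subgroup (GL (Fin 2) ℝ)) := fun x =>
    Subgroup.mem_map_of_mem _
      (CongruenceSubgroup.Gamma0_mem.mpr ((ZMod.intCast_zmod_eq_zero_iff_dvd _ _).mpr (hg'N x)))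
  rw [perL_comp_eq_sum (heckeRep p) (D := (p : ℝ)) ?_ (by exact_mod_cast hp.pos) ?_ _ ?_
    (Subgroup.mem_map_of_mem _ hg0) (MulAction.toPerm (redMatrix p g0))
    (fun x => Matrix.SpecialLinearGroup.mapGL ℝ (g' x)) hmem hmul v]
  · refine Submodule.sum_mem _ fun x _ => perL_mem_Lat (hmem x) ?_
    induction x using OnePoint.rec with
    | infty => exact isIntVec_smul_act_inv_heckeDiagMatrix hp0 hv
    | coe j => exact isIntVec_smul_act_inv_heckeMatrix hp0 _ hv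
  · intro x
    induction x using OnePoint.rec with
    | infty => exact val_det_heckeDiagMatrix hp0
    | coe j => exact val_det_heckeMatrix hp0 _
  · intro x
    induction x using OnePoint.rec with
    | infty => exact heckeDiagMatrix_one_zero hp0
    | coe j => exact heckeMatrix_one_zero hp0 _
  · intro f
    rw [CuspForm.coe_heckeTLin_apply, heckeT_eq_sum_onePoint]

theorem perL_comp_heckeULin_mem {p : ℕ} (hp : p.Prime) (hpN : p ∣ N) {g : GL (Fin 2) ℝ}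
    (hg : g ∈ (Gamma0 N : Subgroup (GL (Fin 2) ℝ))) {v : ℂ × ℂ} (hv : IsIntVec v) :
    perL N w g v ∘ₗ CuspForm.heckeULin ((w : ℤ) + 2) hpN ∈ Lat N w := by
  haveI : NeZero p := ⟨hp.ne_zero⟩
  have hp0 : p ≠ 0 := hp.ne_zero
  obtain ⟨g0, hg0, rfl⟩ := hg
  have hcN : (N : ℤ) ∣ g0 1 0 :=
    (ZMod.intCast_zmod_eq_zero_iff_dvd _ _).mp (CongruenceSubgroup.Gamma0_mem.mp hg0)
  have hc : (p : ℤ) ∣ g0 1 0 := (Int.natCast_dvd_natCast.mpr hpN).trans hcN
  choose g' hg'N hmul using heckeMatrix_mul_of_dvd g0 hc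
  have hmem : ∀ x, Matrix.SpecialLinearGroup.mapGL ℝ (g' x) ∈
      (Gamma0 N : Subgroup (GL (Fin 2) ℝ)) := fun x =>
    Subgroup.mem_map_of_mem _ (by
      rw [CongruenceSubgroup.Gamma0_mem, hg'N x]
      push_cast
      rw [CongruenceSubgroup.Gamma0_mem.mp hg0, mul_zero])
  rw [perL_comp_eq_sum (fun x : ZMod p => heckeMatrix p x.val) (D := (p : ℝ))
    (fun x => val_det_heckeMatrix hp0 _) (by exact_mod_cast hp.pos)
    (fun x => heckeMatrix_one_zero hp0 _) _ ?_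
    (Subgroup.mem_map_of_mem _ hg0)
    (affinePerm g0 ((ZMod.intCast_zmod_eq_zero_iff_dvd _ _).mpr hc))
    (fun x => Matrix.SpecialLinearGroup.mapGL ℝ (g' x)) hmem hmul v]
  · exact Submodule.sum_mem _ fun x _ =>
      perL_mem_Lat (hmem x) (isIntVec_smul_act_inv_heckeMatrix hp0 _ hv)
  · intro f
    rw [CuspForm.coe_heckeULin_apply, heckeU_eq_sum_zmod]

end concrete

variable (N w)

theorem Lat_stable (S : Set ℕ) (t : Module.End ℂ (CuspForm (Gamma0 N) ((w : ℤ) + 2)))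
    (ht : t ∈ CuspForm.heckeGenerators N ((w : ℤ) + 2) S)
    (l : Module.Dual ℂ (CuspForm (Gamma0 N) ((w : ℤ) + 2))) (hl : l ∈ Lat N w) :
    l ∘ₗ t ∈ Lat N w := by
  induction hl using Submodule.span_induction with
  | mem l hl =>
    obtain ⟨g, hg, v, hv, rfl⟩ := hl
    rcases ht with ⟨ℓ, hℓ, hℓN, -, rfl⟩ | ⟨q, hqN, hq, -, rfl⟩
    · exact perL_comp_heckeTLin_mem hℓ hℓN hg hv
    · exact perL_comp_heckeULin_mem hq hqN hg hv
  | zero => rw [LinearMap.zero_comp]; exact Submodule.zero_mem _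
  | add l₁ l₂ _ _ h₁ h₂ => rw [LinearMap.add_comp]; exact Submodule.add_mem _ h₁ h₂
  | smul a l _ h => rw [LinearMap.smul_comp]; exact Submodule.smul_mem _ a h

end Fermat.Agent.S22
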