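import Fermat.Agent.S22.Defs

/-!
# S22, part B2: polynomial functions
-/

set_option autoImplicit false

namespace Fermat.Agent.S22

open UpperHalfPlane Filter Topology
open scoped MatrixGroups ModularForm Manifold

theorem isPolyFun_Gfun (w : ℕ) (J : ℕ → ℍ → ℂ) (τ : ℍ) (a b c d : ℂ) :
    IsPolyFun (fun t => Gfun w J (a * t + b, c * t + d) τ) := by
  refine ⟨∑ m ∈ Finset.range (w + 1),
    Polynomial.C ((-1) ^ m * (w.descFactorial m : ℂ)) *
      (Polynomial.C a * Polynomial.X + Polynomial.C b) ^ m *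
      ((Polynomial.C a * Polynomial.X + Polynomial.C b) * Polynomial.C (τ : ℂ) +
        (Polynomial.C c * Polynomial.X + Polynomial.C d)) ^ (w - m) * Polynomial.C (J m τ), ?_⟩
  intro x
  simp [Gfun, Polynomial.eval_finsetSum]

theorem IsPolyFun.sub {p q : ℂ → ℂ} (hp : IsPolyFun p) (hq : IsPolyFun q) :
    IsPolyFun (fun t => p t - q t) := by
  obtain ⟨P, hP⟩ := hp
  obtain ⟨Q, hQ⟩ := hq
  exact ⟨P - Q, fun x => by rw [Polynomial.eval_sub, ← hP, ← hQ]⟩

theorem IsPolyFun.eq_zero_of_int {p : ℂ → ℂ} (hp : IsPolyFun p) (h : ∀ n : ℤ, p n = 0) (t : ℂ) :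
    p t = 0 := by
  obtain ⟨P, hP⟩ := hp
  have hP0 : P = 0 := by
    apply Polynomial.eq_zero_of_infinite_isRoot
    refine Set.Infinite.mono ?_ (Set.infinite_range_of_injective
      (Int.cast_injective (α := ℂ)))
    rintro _ ⟨n, rfl⟩
    show P.eval (n : ℂ) = 0
    rw [← hP, h]
  rw [hP, hP0, Polynomial.eval_zero]

theorem IsPolyFun.const_of_periodic {p : ℂ → ℂ} (hp : IsPolyFun p) {h : ℝ} (hh : 0 < h)
    (hper : ∀ τ : ℍ, p ((τ : ℂ) + h) = p τ) (τ τ' : ℍ) : p τ = p τ' := by
  obtain ⟨P, hP⟩ := hp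
  have hn : ∀ n : ℕ, p ((τ : ℂ) + n * h) = p τ := by
    intro n
    induction n with
    | zero => simp
    | succ n ih =>
      have := hper (((n : ℝ) * h) +ᵥ τ)
      rw [UpperHalfPlane.coe_vadd] at this
      push_cast at this ⊢
      rw [← ih, show (τ : ℂ) + ((n : ℂ) + 1) * h = n * h + τ + h by ring, this]
      congr 1
      ring
  have hP0 : P - Polynomial.C (p τ) = 0 := by
    apply Polynomial.eq_zero_of_infinite_isRoot
    have hinj : Function.Injective (fun n : ℕ => (τ : ℂ) + n * h) := by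
      intro m n hmn
      have h0 : (h : ℂ) ≠ 0 := by exact_mod_cast hh.ne'
      have : (m : ℂ) = n := mul_right_cancel₀ h0 (add_left_cancel hmn)
      exact_mod_cast this
    refine Set.Infinite.mono ?_ (Set.infinite_range_of_injective hinj)
    rintro _ ⟨n, rfl⟩
    show (P - Polynomial.C (p τ)).eval ((τ : ℂ) + n * h) = 0
    rw [Polynomial.eval_sub, Polynomial.eval_C, ← hP, hn, sub_self]
  have : P = Polynomial.C (p τ) := sub_eq_zero.mp hP0
  rw [hP τ', this, Polynomial.eval_C]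

end Fermat.Agent.S22
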