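import Fermat.Agent.S22.Lattice
import Fermat.Agent.S22.Poly
import Fermat.Prelude.Thm_Subgroup_IsArithmetic_exists_nat_mem_strictPeriods_conj
import Fermat.Prelude.Thm_ModularForm_sturm_bound_Gamma0
import Fermat.Prelude.Thm_CongruenceSubgroup_one_mem_strictPeriods_Gamma0

/-!
# S22, part F: the period lattice separates points
-/

set_option autoImplicit false

namespace Fermat.Agent.S22

open UpperHalfPlane Filter Topology CongruenceSubgroup
open scoped MatrixGroups ModularForm Manifold Pointwise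

theorem slash_neg_apply (F : ℍ → ℂ) (w : ℕ) {g : GL (Fin 2) ℝ} (hg : g.val.det = 1) (τ : ℍ) :
    (F ∣[-(w : ℤ)] g) τ = F (g • τ) * denom g τ ^ w := by
  have hdet : g.det.val = 1 := by rw [Matrix.GeneralLinearGroup.val_det_apply, hg]
  have hσ : σ g = .refl ℝ ℂ := by rw [σ, if_pos (by rw [hdet]; exact one_pos)]
  rw [ModularForm.slash_apply, hσ, hdet]
  simp

theorem act_denom_num {g : GL (Fin 2) ℝ} (hg : g.val.det = 1) (t : ℂ) :
    act g (denom g t, -num g t) = (1, -t) := by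
  have h : (g 0 0 : ℂ) * g 1 1 - g 0 1 * g 1 0 = 1 := by
    rw [Matrix.det_fin_two] at hg
    exact_mod_cast hg
  ext
  · simp only [act, denom, num]
    linear_combination h
  · simp only [act, denom, num]
    linear_combination (-t) * h

/-- The key identity comparing the top primitives. -/
theorem key_identity {φ : ℍ → ℂ} {J J' : ℕ → ℍ → ℂ} (w : ℕ) {g : GL (Fin 2) ℝ}
    (hg : g.val.det = 1) (hJ : IsTower φ J) (hJ' : IsTower (φ ∣[(w : ℤ) + 2] g) J') (τ : ℍ) :
    (-1) ^ w * (w.factorial : ℂ) * ((J w ∣[-(w : ℤ)] g) τ - J' w τ) =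
      Gfun w J (denom g τ, -num g τ) (g • UpperHalfPlane.I)
        - Gfun w J' (act g (denom g τ, -num g τ)) UpperHalfPlane.I := by
  have hpos : 0 < g.val.det := by rw [hg]; exact one_pos
  have hpos' : 0 < g.det.val := by rwa [Matrix.GeneralLinearGroup.val_det_apply]
  have h := Gfun_transform w hpos hJ hJ' (denom g τ, -num g τ) τ UpperHalfPlane.I
  simp only [hg, Complex.ofReal_one, one_pow, one_mul] at h
  rw [← h, act_denom_num hg]
  rw [Gfun_diag w J _ (g • τ) (by
      simp only [coe_smul_of_det_pos hpos']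
      field_simp [denom_ne_zero g τ]
      ring),
    Gfun_diag w J' _ τ (by simp), slash_neg_apply _ _ hg]
  simp only [one_pow, mul_one]
  ring


/-- a "two variable polynomial" of the relevant shape vanishing on `ℤ²` vanishes. -/
theorem Gfun_diff_eq_zero (w : ℕ) (J J' : ℕ → ℍ → ℂ) (g : GL (Fin 2) ℝ) (τ τ' : ℍ)
    (h : ∀ v, IsIntVec v → Gfun w J v τ - Gfun w J' (act g v) τ' = 0) (v : ℂ × ℂ) :
    Gfun w J v τ - Gfun w J' (act g v) τ' = 0 := by
  obtain ⟨X, Y⟩ := v
  -- first: integral `Y`, arbitrary `X`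
  have h1 : ∀ (n : ℤ) (t : ℂ), Gfun w J (t, (n : ℂ)) τ - Gfun w J' (act g (t, (n : ℂ))) τ' = 0 := by
    intro n
    have hp : IsPolyFun (fun t : ℂ => Gfun w J (t, (n : ℂ)) τ - Gfun w J' (act g (t, (n : ℂ))) τ') := by
      have a1 := isPolyFun_Gfun w J τ 1 0 0 n
      have a2 := isPolyFun_Gfun w J' τ' (g 0 0 : ℂ) ((g 1 0 : ℂ) * n) (g 0 1 : ℂ) ((g 1 1 : ℂ) * n)
      simpa [act] using a1.sub a2
    exact hp.eq_zero_of_int fun m => h _ ⟨m, n, rfl⟩
  have hp : IsPolyFun (fun t : ℂ => Gfun w J (X, t) τ - Gfun w J' (act g (X, t)) τ') := by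
    have a1 := isPolyFun_Gfun w J τ 0 X 1 0
    have a2 := isPolyFun_Gfun w J' τ' (g 1 0 : ℂ) ((g 0 0 : ℂ) * X) (g 1 1 : ℂ) ((g 0 1 : ℂ) * X)
    have := a1.sub a2
    simp only [zero_mul, zero_add, one_mul, add_zero] at this
    convert this using 4 with t
    simp only [act]
    ext <;> simp <;> ring
  exact hp.eq_zero_of_int (fun m => h1 m X) Y


variable {N : ℕ} [NeZero N] {w : ℕ}

theorem perL_eq_zero_of_Lat (f : CuspForm (Gamma0 N) ((w : ℤ) + 2)) (h : ∀ l ∈ Lat N w, l f = 0)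
    {g : GL (Fin 2) ℝ} (hg : g ∈ (Gamma0 N : Subgroup (GL (Fin 2) ℝ))) (v : ℂ × ℂ) :
    perL N w g v f = 0 := by
  have := Gfun_diff_eq_zero w (tower f) (tower f) g (g • UpperHalfPlane.I) UpperHalfPlane.I
    (fun v hv => by simpa [perL, evL_apply] using h _ (perL_mem_Lat hg hv)) v
  simpa [perL, evL_apply] using this

theorem cw_ne_zero (w : ℕ) : ((-1) ^ w * (w.factorial : ℂ)) ≠ 0 :=
  mul_ne_zero (pow_ne_zero _ (by norm_num)) (by exact_mod_cast w.factorial_ne_zero)

theorem top_slash_eq (f : CuspForm (Gamma0 N) ((w : ℤ) + 2)) (h : ∀ l ∈ Lat N w, l f = 0)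
    {g : GL (Fin 2) ℝ} (hg : g ∈ (Gamma0 N : Subgroup (GL (Fin 2) ℝ))) :
    tower f w ∣[-(w : ℤ)] g = tower f w := by
  have hdet := det_of_mem_Gamma0 hg
  have hf : (⇑f ∣[(w : ℤ) + 2] g) = ⇑f := SlashInvariantFormClass.slash_action_eq f g hg
  have hJ := isTower_cuspForm f
  have hJ' : IsTower (⇑f ∣[(w : ℤ) + 2] g) (tower f) := by rw [hf]; exact hJ
  ext τ
  have key := key_identity w hdet hJ hJ' τ
  have h0 := perL_eq_zero_of_Lat f h hg (denom g τ, -num g τ)
  simp only [perL, LinearMap.sub_apply, evL_apply] at h0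
  rw [h0] at key
  have := (mul_eq_zero.mp key).resolve_left (cw_ne_zero w)
  exact sub_eq_zero.mp this

/-- the top primitive as a slash invariant form of weight `-w` -/
noncomputable def topSIF (f : CuspForm (Gamma0 N) ((w : ℤ) + 2)) (h : ∀ l ∈ Lat N w, l f = 0) :
    SlashInvariantForm (Gamma0 N : Subgroup (GL (Fin 2) ℝ)) (-(w : ℤ)) where
  toFun := tower f w
  slash_action_eq' _ hg := top_slash_eq f h hg

theorem top_bdd (f : CuspForm (Gamma0 N) ((w : ℤ) + 2)) (h : ∀ l ∈ Lat N w, l f = 0)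
    (γ : SL(2, ℤ)) : IsBoundedAtImInfty (tower f w ∣[-(w : ℤ)] γ) := by
  set g : GL (Fin 2) ℝ := Matrix.SpecialLinearGroup.mapGL ℝ γ with hgdef
  have hdet : g.val.det = 1 := by
    rw [← Matrix.GeneralLinearGroup.val_det_apply]; simp [hgdef]
  obtain ⟨M, hM, hper⟩ := Subgroup.IsArithmetic.exists_nat_mem_strictPeriods_conj
    (Gamma0 N : Subgroup (GL (Fin 2) ℝ))
  have hperγ : (M : ℝ) ∈ (ConjAct.toConjAct g⁻¹ • (Gamma0 N : Subgroup (GL (Fin 2) ℝ))).strictPeriods := by
    have := hper γ⁻¹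
    rwa [map_inv] at this
  have hMpos : (0 : ℝ) < M := by exact_mod_cast hM
  -- the translated cusp form and its tower
  have hφper : Function.Periodic ((⇑f ∣[(w : ℤ) + 2] g) ∘ ofComplex) ((M : ℝ) : ℂ) :=
    SlashInvariantFormClass.periodic_comp_ofComplex (SlashInvariantForm.translate f g) hperγ
  obtain ⟨J', hJ', hJ'per⟩ := hasTower_of_periodic hMpos hφper
    ((CuspFormClass.holo f).slash _ g) (CuspFormClass.zero_at_infty_slash f γ)
  have hFper : Function.Periodic ((tower f w ∣[-(w : ℤ)] g) ∘ ofComplex) ((M : ℝ) : ℂ) :=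
    SlashInvariantFormClass.periodic_comp_ofComplex
      (SlashInvariantForm.translate (topSIF f h) g) hperγ
  have hJ := isTower_cuspForm f
  -- the polynomial
  set p : ℂ → ℂ := fun t => Gfun w (tower f) (denom g t, -num g t) (g • UpperHalfPlane.I)
        - Gfun w J' (act g (denom g t, -num g t)) UpperHalfPlane.I with hp
  have hpoly : IsPolyFun p := by
    have a1 := isPolyFun_Gfun w (tower f) (g • UpperHalfPlane.I) (g 1 0 : ℂ) (g 1 1 : ℂ)
      (-(g 0 0 : ℂ)) (-(g 0 1 : ℂ))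
    have a2 := isPolyFun_Gfun w J' UpperHalfPlane.I 0 1 (-1) 0
    have := a1.sub a2
    convert this using 2 with t
    rw [hp]
    simp only [act_denom_num hdet]
    congr 2
    · ext <;> simp [denom, num] <;> ring
    · ext <;> simp
  have key : ∀ τ : ℍ, (-1) ^ w * (w.factorial : ℂ) * ((tower f w ∣[-(w : ℤ)] g) τ - J' w τ) = p τ :=
    fun τ => key_identity w hdet hJ hJ' τ
  have hpper : ∀ τ : ℍ, p ((τ : ℂ) + (M : ℝ)) = p τ := by
    intro τ
    have him : 0 < ((τ : ℂ) + (M : ℝ)).im := by simpa using τ.im_pos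
    have e1 := hFper τ
    have e2 := hJ'per w τ
    simp only [Function.comp_apply, ofComplex_apply] at e1 e2
    have := key (ofComplex ((τ : ℂ) + (M : ℝ)))
    rw [e1, e2, key τ, ofComplex_apply_of_im_pos him] at this
    exact this.symm
  have hconst : ∀ τ : ℍ, p τ = p UpperHalfPlane.I :=
    fun τ => hpoly.const_of_periodic hMpos hpper τ UpperHalfPlane.I
  have hEq : (tower f w ∣[-(w : ℤ)] g) =
      J' w + fun _ => ((-1) ^ w * (w.factorial : ℂ))⁻¹ * p UpperHalfPlane.I := by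
    ext τ
    have := key τ
    rw [hconst τ] at this
    simp only [Pi.add_apply]
    rw [← this, ← mul_assoc, inv_mul_cancel₀ (cw_ne_zero w)]
    ring
  have hsl : (tower f w ∣[-(w : ℤ)] γ) = tower f w ∣[-(w : ℤ)] g := rfl
  rw [hsl, hEq]
  have hz : IsZeroAtImInfty (J' w) := by
    cases w with
    | zero => exact hJ'.1.2
    | succ n => exact (hJ'.2 n).2
  exact hz.isBoundedAtImInfty.add (Filter.const_boundedAtFilter _ _)

theorem isZero_tower {φ : ℍ → ℂ} {J : ℕ → ℍ → ℂ} (hJ : IsTower φ J) (m : ℕ) :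
    IsZeroAtImInfty (J m) := by
  cases m with
  | zero => exact hJ.1.2
  | succ n => exact (hJ.2 n).2

theorem mdiff_tower {φ : ℍ → ℂ} {J : ℕ → ℍ → ℂ} (hJ : IsTower φ J) (m : ℕ) :
    MDiff (J m) := by
  cases m with
  | zero => exact hJ.1.mdiff
  | succ n => exact (hJ.2 n).mdiff

/-- the top primitive as a modular form of weight `-w` -/
noncomputable def topMF (f : CuspForm (Gamma0 N) ((w : ℤ) + 2)) (h : ∀ l ∈ Lat N w, l f = 0) :
    ModularForm (Gamma0 N : Subgroup (GL (Fin 2) ℝ)) (-(w : ℤ)) where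
  toSlashInvariantForm := topSIF f h
  holo' := mdiff_tower (isTower_cuspForm f) w
  bdd_at_cusps' {c} hc := by
    rw [Subgroup.IsArithmetic.isCusp_iff_isCusp_SL2Z] at hc
    rw [OnePoint.isBoundedAt_iff_forall_SL2Z hc]
    intro γ _
    exact top_bdd f h γ

variable (N w)

theorem Lat_sep (f : CuspForm (Gamma0 N) ((w : ℤ) + 2)) (h : ∀ l ∈ Lat N w, l f = 0) : f = 0 := by
  have hJ := isTower_cuspForm f
  have h0 : topMF f h = 0 := by
    apply ModularForm.sturm_bound_Gamma0 N
    intro n hn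
    have hle : (-(w : ℤ) * ((Gamma0 N).index : ℤ)).toNat = 0 := by
      apply Int.toNat_of_nonpos
      have : (0 : ℤ) ≤ (w : ℤ) * ((Gamma0 N).index : ℤ) := by positivity
      linarith
    rw [hle] at hn
    have hn0 : n = 0 := by omega
    subst hn0
    have h1 : (1 : ℝ) ∈ (Gamma0 N : Subgroup (GL (Fin 2) ℝ)).strictPeriods :=
      CongruenceSubgroup.one_mem_strictPeriods_Gamma0 N
    rw [qExpansion_coeff_zero one_pos
      (ModularFormClass.analyticAt_cuspFunction_zero (topMF f h) one_pos h1)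
      (SlashInvariantFormClass.periodic_comp_ofComplex (topMF f h) h1)]
    exact (isZero_tower hJ w).valueAtInfty_eq_zero
  have h1 : tower f w = 0 := by
    have := congrArg (fun F : ModularForm _ _ => (⇑F : ℍ → ℂ)) h0
    exact this
  have h2 := hJ.eq_zero_of_eq_zero w h1
  exact DFunLike.coe_injective h2

end Fermat.Agent.S22
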