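import Fermat.Agent.S22.GFun

/-!
# S22, part D0: the period lattice (definitions and basic identities)
-/

set_option autoImplicit false

namespace Fermat.Agent.S22

open UpperHalfPlane Filter Topology CongruenceSubgroup
open scoped MatrixGroups ModularForm Manifold

theorem hasTower_cuspForm' {Γ : Subgroup (GL (Fin 2) ℝ)} [Γ.IsArithmetic] {k : ℤ}
    (f : CuspForm Γ k) :
    ∃ h : ℝ, 0 < h ∧ h ∈ Γ.strictPeriods ∧
      ∃ J, IsTower f J ∧ ∀ m, Function.Periodic (J m ∘ ofComplex) h := by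
  have hh : 0 < Γ.strictWidthInfty := Γ.strictWidthInfty_pos_iff.mpr Fact.out
  have hΓ : Γ.strictWidthInfty ∈ Γ.strictPeriods := Γ.strictWidthInfty_mem_strictPeriods
  exact ⟨_, hh, hΓ, hasTower_of_periodic hh (SlashInvariantFormClass.periodic_comp_ofComplex f hΓ)
    (CuspFormClass.holo f) (CuspFormClass.zero_at_infty f)⟩

theorem hasTower_cuspForm {Γ : Subgroup (GL (Fin 2) ℝ)} [Γ.IsArithmetic] {k : ℤ}
    (f : CuspForm Γ k) : HasTower f := by
  obtain ⟨h, -, -, J, hJ, -⟩ := hasTower_cuspForm' f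
  exact ⟨J, hJ⟩

theorem isTower_cuspForm {Γ : Subgroup (GL (Fin 2) ℝ)} [Γ.IsArithmetic] {k : ℤ}
    (f : CuspForm Γ k) : IsTower f (tower f) := (hasTower_cuspForm f).isTower

section
variable (N : ℕ) [NeZero N] (w : ℕ)

/-- the functional `f ↦ Gfun w (tower f) v τ` -/
noncomputable def evL (v : ℂ × ℂ) (τ : ℍ) : CuspForm (Gamma0 N) ((w : ℤ) + 2) →ₗ[ℂ] ℂ where
  toFun f := Gfun w (tower f) v τ
  map_add' f g := by
    have h : tower (⇑(f + g)) = tower f + tower g := by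
      rw [FunLike.coe_add]
      exact ((isTower_cuspForm f).add (isTower_cuspForm g)).tower_eq
    rw [h, Gfun_add]
  map_smul' c f := by
    have h : tower (⇑(c • f)) = c • tower f := by
      rw [FunLike.coe_smul]
      exact ((isTower_cuspForm f).smul c).tower_eq
    rw [h, Gfun_smul_left]
    rfl

/-- the period functional -/
noncomputable def perL (g : GL (Fin 2) ℝ) (v : ℂ × ℂ) :
    CuspForm (Gamma0 N) ((w : ℤ) + 2) →ₗ[ℂ] ℂ :=
  evL N w v (g • UpperHalfPlane.I) - evL N w (act g v) UpperHalfPlane.I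

/-- the period lattice -/
def Lat : Submodule ℤ (Module.Dual ℂ (CuspForm (Gamma0 N) ((w : ℤ) + 2))) :=
  Submodule.span ℤ {l | ∃ g ∈ (Gamma0 N : Subgroup (GL (Fin 2) ℝ)), ∃ v, IsIntVec v ∧
    l = perL N w g v}

variable {N w}

theorem evL_apply (v : ℂ × ℂ) (τ : ℍ) (f : CuspForm (Gamma0 N) ((w : ℤ) + 2)) :
    evL N w v τ f = Gfun w (tower f) v τ := rfl

omit [NeZero N] in
theorem det_of_mem_Gamma0 {g : GL (Fin 2) ℝ} (hg : g ∈ (Gamma0 N : Subgroup (GL (Fin 2) ℝ))) :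
    g.val.det = 1 := by
  obtain ⟨γ, -, rfl⟩ := hg
  rw [← Matrix.GeneralLinearGroup.val_det_apply]
  simp

theorem perL_apply {g : GL (Fin 2) ℝ} (hg : g ∈ (Gamma0 N : Subgroup (GL (Fin 2) ℝ)))
    (v : ℂ × ℂ) (f : CuspForm (Gamma0 N) ((w : ℤ) + 2)) (τ : ℍ) :
    perL N w g v f = Gfun w (tower f) v (g • τ) - Gfun w (tower f) (act g v) τ := by
  have hdet := det_of_mem_Gamma0 hg
  have hf : (⇑f ∣[(w : ℤ) + 2] g) = ⇑f := SlashInvariantFormClass.slash_action_eq f g hg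
  have hJ := isTower_cuspForm f
  have hJ' : IsTower (⇑f ∣[(w : ℤ) + 2] g) (tower f) := by rw [hf]; exact hJ
  have := Gfun_transform w (g := g) (by rw [hdet]; exact one_pos) hJ hJ' v UpperHalfPlane.I τ
  simp only [hdet, Complex.ofReal_one, one_pow, one_mul] at this
  simpa [perL, evL_apply] using this

theorem perL_mem_Lat {g : GL (Fin 2) ℝ} (hg : g ∈ (Gamma0 N : Subgroup (GL (Fin 2) ℝ)))
    {v : ℂ × ℂ} (hv : IsIntVec v) : perL N w g v ∈ Lat N w :=
  Submodule.subset_span ⟨g, hg, v, hv, rfl⟩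

omit [NeZero N] in
theorem isIntVec_act {g : GL (Fin 2) ℝ} (hg : g ∈ (Gamma0 N : Subgroup (GL (Fin 2) ℝ)))
    {v : ℂ × ℂ} (hv : IsIntVec v) : IsIntVec (act g v) := by
  obtain ⟨γ, -, rfl⟩ := hg
  obtain ⟨X, Y, rfl⟩ := hv
  refine ⟨γ 0 0 * X + γ 1 0 * Y, γ 0 1 * X + γ 1 1 * Y, ?_⟩
  simp [act]

end

end Fermat.Agent.S22
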