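import Fermat.Statements.S22

/-!
# S22: basic definitions (decaying primitives, towers, the function `Gfun`)
-/

set_option autoImplicit false

namespace Fermat.Agent.S22

open UpperHalfPlane Filter Topology
open scoped MatrixGroups ModularForm Manifold

/-- `ψ` is a primitive of `φ` on the upper half plane which tends to `0` at `i∞`. -/
def IsPrim (φ ψ : ℍ → ℂ) : Prop :=
  (∀ τ : ℍ, HasDerivAt (ψ ∘ ofComplex) (φ τ) τ) ∧ IsZeroAtImInfty ψ

/-- `J 0, J 1, …` are the iterated decaying primitives of `φ`. -/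
def IsTower (φ : ℍ → ℂ) (J : ℕ → ℍ → ℂ) : Prop :=
  IsPrim φ (J 0) ∧ ∀ m, IsPrim (J m) (J (m + 1))

/-- `φ` admits a tower of decaying primitives. -/
def HasTower (φ : ℍ → ℂ) : Prop := ∃ J, IsTower φ J

open Classical in
/-- The tower of decaying primitives of `φ` (junk value `0` if it does not exist). -/
noncomputable def tower (φ : ℍ → ℂ) : ℕ → ℍ → ℂ :=
  if h : HasTower φ then h.choose else 0

/-- The primitive of `(X τ + Y) ^ w * φ τ` obtained by repeated integration by parts from a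
tower `J` of `φ`; here `v = (X, Y)`. -/
noncomputable def Gfun (w : ℕ) (J : ℕ → ℍ → ℂ) (v : ℂ × ℂ) (τ : ℍ) : ℂ :=
  ∑ m ∈ Finset.range (w + 1),
    (-1) ^ m * (w.descFactorial m : ℂ) * v.1 ^ m * (v.1 * τ + v.2) ^ (w - m) * J m τ

/-- Right action of a real matrix on row vectors `(X, Y)`. -/
noncomputable def act (g : GL (Fin 2) ℝ) (v : ℂ × ℂ) : ℂ × ℂ :=
  ((g 0 0 : ℂ) * v.1 + (g 1 0 : ℂ) * v.2, (g 0 1 : ℂ) * v.1 + (g 1 1 : ℂ) * v.2)

/-- Integral vectors. -/
def IsIntVec (v : ℂ × ℂ) : Prop := ∃ X Y : ℤ, v = ((X : ℂ), (Y : ℂ))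

/-- Polynomial functions `ℂ → ℂ`. -/
def IsPolyFun (q : ℂ → ℂ) : Prop := ∃ P : Polynomial ℂ, ∀ x, q x = P.eval x

end Fermat.Agent.S22
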