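import Fermat.Agent.S22.Prim

/-!
# S22, part B: the function `Gfun` and its transformation behaviour
-/

set_option autoImplicit false

namespace Fermat.Agent.S22

open UpperHalfPlane Filter Topology
open scoped MatrixGroups ModularForm Manifold

theorem act_one (v : ℂ × ℂ) : act 1 v = v := by
  simp [act]

theorem act_mul (g h : GL (Fin 2) ℝ) (v : ℂ × ℂ) : act (g * h) v = act h (act g v) := by
  ext <;>
  · simp only [act, Matrix.GeneralLinearGroup.coe_mul, Matrix.mul_apply, Fin.sum_univ_two]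
    push_cast
    ring

theorem act_smul (g : GL (Fin 2) ℝ) (c : ℂ) (v : ℂ × ℂ) : act g (c • v) = c • act g v := by
  ext <;>
  · simp only [act, Prod.smul_fst, Prod.smul_snd, smul_eq_mul]
    ring

theorem Gfun_smul (w : ℕ) (J : ℕ → ℍ → ℂ) (c : ℂ) (v : ℂ × ℂ) (τ : ℍ) :
    Gfun w J (c • v) τ = c ^ w * Gfun w J v τ := by
  simp only [Gfun, Finset.mul_sum]
  refine Finset.sum_congr rfl fun m hm => ?_
  have hm' : m ≤ w := Nat.lt_succ_iff.mp (Finset.mem_range.mp hm)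
  have h1 : c ^ w = c ^ m * c ^ (w - m) := by rw [← pow_add, Nat.add_sub_cancel' hm']
  simp only [Prod.smul_fst, Prod.smul_snd, smul_eq_mul]
  rw [show c * v.1 * (τ : ℂ) + c * v.2 = c * (v.1 * τ + v.2) by ring, mul_pow, mul_pow, h1]
  ring

theorem Gfun_add (w : ℕ) (J J' : ℕ → ℍ → ℂ) (v : ℂ × ℂ) (τ : ℍ) :
    Gfun w (J + J') v τ = Gfun w J v τ + Gfun w J' v τ := by
  simp only [Gfun, ← Finset.sum_add_distrib, Pi.add_apply]
  exact Finset.sum_congr rfl fun m _ => by ring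

theorem Gfun_smul_left (w : ℕ) (c : ℂ) (J : ℕ → ℍ → ℂ) (v : ℂ × ℂ) (τ : ℍ) :
    Gfun w (c • J) v τ = c * Gfun w J v τ := by
  simp only [Gfun, Finset.mul_sum, Pi.smul_apply, smul_eq_mul]
  exact Finset.sum_congr rfl fun m _ => by ring

theorem Gfun_sum {ι : Type*} (s : Finset ι) (w : ℕ) (J : ι → ℕ → ℍ → ℂ) (v : ℂ × ℂ) (τ : ℍ) :
    Gfun w (∑ i ∈ s, J i) v τ = ∑ i ∈ s, Gfun w (J i) v τ := by
  simp only [Gfun, Finset.sum_apply, Finset.mul_sum]
  exact Finset.sum_comm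

/-- on the "diagonal" only the top term survives -/
theorem Gfun_diag (w : ℕ) (J : ℕ → ℍ → ℂ) (v : ℂ × ℂ) (τ : ℍ) (h : v.1 * τ + v.2 = 0) :
    Gfun w J v τ = (-1) ^ w * (w.factorial : ℂ) * v.1 ^ w * J w τ := by
  rw [Gfun, Finset.sum_range_succ, Finset.sum_eq_zero, zero_add, Nat.sub_self, pow_zero, mul_one,
    Nat.descFactorial_self]
  intro m hm
  have hm' : w - m ≠ 0 := Nat.sub_ne_zero_of_lt (Finset.mem_range.mp hm)
  rw [h, zero_pow hm']
  ring

theorem hasDerivAt_coe_ofComplex (τ : ℍ) :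
    HasDerivAt (fun z : ℂ => ((ofComplex z : ℍ) : ℂ)) 1 τ :=
  (hasDerivAt_id (τ : ℂ)).congr_of_eventuallyEq (eventuallyEq_coe_comp_ofComplex τ.im_pos)

/-- the telescoping identity behind integration by parts -/
theorem telescope_aux (w : ℕ) (X L φ₀ : ℂ) (j : ℕ → ℂ) :
    ∑ m ∈ Finset.range (w + 1), (-1) ^ m * (w.descFactorial m : ℂ) * X ^ m *
      (((w - m : ℕ) : ℂ) * L ^ (w - m - 1) * X * j m +
        L ^ (w - m) * (if m = 0 then φ₀ else j (m - 1))) = L ^ w * φ₀ := by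
  have hA : ∀ m, (-1 : ℂ) ^ m * (w.descFactorial m : ℂ) * X ^ m *
      (((w - m : ℕ) : ℂ) * L ^ (w - m - 1) * X * j m +
        L ^ (w - m) * (if m = 0 then φ₀ else j (m - 1))) =
      (-1) ^ m * (w.descFactorial (m + 1) : ℂ) * X ^ (m + 1) * L ^ (w - (m + 1)) * j m +
      (-1) ^ m * (w.descFactorial m : ℂ) * X ^ m * L ^ (w - m) *
        (if m = 0 then φ₀ else j (m - 1)) := by
    intro m
    rw [Nat.descFactorial_succ, Nat.sub_sub]
    push_cast
    ring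
  simp only [hA, Finset.sum_add_distrib]
  rw [Finset.sum_range_succ, Finset.sum_range_succ' (fun m => (-1 : ℂ) ^ m *
    (w.descFactorial m : ℂ) * X ^ m * L ^ (w - m) * (if m = 0 then φ₀ else j (m - 1)))]
  have h0 : w.descFactorial (w + 1) = 0 := Nat.descFactorial_eq_zero_iff_lt.mpr (Nat.lt_succ_self w)
  simp only [h0, Nat.cast_zero, mul_zero, zero_mul, add_zero, Nat.succ_ne_zero, if_false,
    Nat.add_sub_cancel, if_true, pow_zero, Nat.descFactorial_zero, Nat.cast_one, one_mul,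
    Nat.sub_zero]
  rw [← add_assoc, ← Finset.sum_add_distrib, Finset.sum_eq_zero, zero_add]
  intro m _
  ring

theorem hasDerivAt_Gfun {φ : ℍ → ℂ} {J : ℕ → ℍ → ℂ} (hJ : IsTower φ J) (w : ℕ) (v : ℂ × ℂ)
    (τ : ℍ) : HasDerivAt (Gfun w J v ∘ ofComplex) ((v.1 * τ + v.2) ^ w * φ τ) τ := by
  have hJd : ∀ m, HasDerivAt (J m ∘ ofComplex) (if m = 0 then φ τ else J (m - 1) τ) τ := by
    intro m
    rcases m with _ | m
    · simpa using hJ.1.1 τ
    · simpa using (hJ.2 m).1 τ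
  have hL : HasDerivAt (fun z : ℂ => v.1 * ((ofComplex z : ℍ) : ℂ) + v.2) v.1 τ := by
    simpa using ((hasDerivAt_coe_ofComplex τ).const_mul v.1).add_const v.2
  have hterm : ∀ m, HasDerivAt (fun z : ℂ => (-1) ^ m * (w.descFactorial m : ℂ) * v.1 ^ m *
      ((v.1 * ((ofComplex z : ℍ) : ℂ) + v.2) ^ (w - m) * (J m ∘ ofComplex) z))
      ((-1) ^ m * (w.descFactorial m : ℂ) * v.1 ^ m *
      (((w - m : ℕ) : ℂ) * (v.1 * τ + v.2) ^ (w - m - 1) * v.1 * J m τ +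
        (v.1 * τ + v.2) ^ (w - m) * (if m = 0 then φ τ else J (m - 1) τ))) τ := by
    intro m
    have := ((hL.pow (w - m)).mul (hJd m)).const_mul ((-1) ^ m * (w.descFactorial m : ℂ) * v.1 ^ m)
    simpa [ofComplex_apply] using this
  have hsum := HasDerivAt.fun_sum (u := Finset.range (w + 1)) (fun m _ => hterm m)
  rw [telescope_aux] at hsum
  refine hsum.congr_of_eventuallyEq (Eventually.of_forall fun z => ?_)
  simp only [Function.comp_apply, Gfun]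
  exact Finset.sum_congr rfl fun m _ => by ring

theorem slash_apply_of_det_pos (φ : ℍ → ℂ) (w : ℕ) {g : GL (Fin 2) ℝ} (hg : 0 < g.val.det)
    (τ : ℍ) : (φ ∣[(w : ℤ) + 2] g) τ =
      φ (g • τ) * (g.val.det : ℂ) ^ (w + 1) * ((denom g τ) ^ (w + 2))⁻¹ := by
  have hdet : g.det.val = g.val.det := Matrix.GeneralLinearGroup.val_det_apply g
  have hσ (x) : σ g x = x := by
    rw [σ, if_pos (by rwa [hdet])]; rfl
  rw [ModularForm.slash_apply, hσ, hdet, abs_of_pos hg,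
    show (w : ℤ) + 2 - 1 = ((w + 1 : ℕ) : ℤ) by push_cast; ring,
    show -((w : ℤ) + 2) = -((w + 2 : ℕ) : ℤ) by push_cast; ring, zpow_natCast, zpow_neg,
    zpow_natCast]

theorem act_linear_form {g : GL (Fin 2) ℝ} (hg : 0 < g.val.det) (v : ℂ × ℂ) (τ : ℍ) :
    (act g v).1 * τ + (act g v).2 = (v.1 * ((g • τ : ℍ) : ℂ) + v.2) * denom g τ := by
  have hd := denom_ne_zero g τ
  rw [coe_smul_of_det_pos hg, add_mul, mul_assoc, div_mul_cancel₀ _ hd]
  simp only [act, num, denom]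
  ring

theorem hasDerivAt_comp_smul {F : ℍ → ℂ} {g : GL (Fin 2) ℝ} (hg : 0 < g.val.det) (τ : ℍ) {d : ℂ}
    (hF : HasDerivAt (F ∘ ofComplex) d ((g • τ : ℍ) : ℂ)) :
    HasDerivAt ((fun τ' : ℍ => F (g • τ')) ∘ ofComplex)
      (d * ((g.val.det : ℂ) / denom g τ ^ 2)) τ := by
  have h_smul : HasDerivAt (fun z ↦ ↑(g • ofComplex z) : ℂ → ℂ)
      ((g.val.det : ℂ) / denom g τ ^ 2) ↑τ := (hasStrictDerivAt_smul hg τ).hasDerivAt
  have hF' : HasDerivAt (F ∘ ofComplex) d ((g • ofComplex (τ : ℂ) : ℍ) : ℂ) := by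
    rwa [ofComplex_apply]
  have := hF'.comp (τ : ℂ) h_smul
  refine this.congr_of_eventuallyEq (Eventually.of_forall fun z => ?_)
  simp [Function.comp_apply, ofComplex_apply]

/-- Transformation law: the difference is constant. -/
theorem Gfun_transform {φ : ℍ → ℂ} {J J' : ℕ → ℍ → ℂ} (w : ℕ) {g : GL (Fin 2) ℝ}
    (hg : 0 < g.val.det) (hJ : IsTower φ J) (hJ' : IsTower (φ ∣[(w : ℤ) + 2] g) J') (v : ℂ × ℂ)
    (τ τ' : ℍ) :
    (g.val.det : ℂ) ^ w * Gfun w J v (g • τ) - Gfun w J' (act g v) τ =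
      (g.val.det : ℂ) ^ w * Gfun w J v (g • τ') - Gfun w J' (act g v) τ' := by
  refine const_of_hasDerivAt_zero
    (F := fun τ => (g.val.det : ℂ) ^ w * Gfun w J v (g • τ) - Gfun w J' (act g v) τ) ?_ τ τ'
  intro τ
  have h1 := (hasDerivAt_comp_smul hg τ (hasDerivAt_Gfun hJ w v (g • τ))).const_mul
    ((g.val.det : ℂ) ^ w)
  have h2 := hasDerivAt_Gfun hJ' w (act g v) τ
  have h3 := h1.sub h2
  have hd := denom_ne_zero g τ
  have hzero : (g.val.det : ℂ) ^ w * ((v.1 * ((g • τ : ℍ) : ℂ) + v.2) ^ w * φ (g • τ) *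
      ((g.val.det : ℂ) / denom g τ ^ 2)) -
      ((act g v).1 * τ + (act g v).2) ^ w * (φ ∣[(w : ℤ) + 2] g) τ = 0 := by
    rw [act_linear_form hg, slash_apply_of_det_pos φ w hg, mul_pow]
    field_simp
    ring
  rw [hzero] at h3
  exact h3

theorem det_upper {g : GL (Fin 2) ℝ} (hg10 : g 1 0 = 0) : g.val.det = g 0 0 * g 1 1 := by
  rw [Matrix.det_fin_two]
  have : g.val 1 0 = 0 := hg10
  rw [this]; ring

theorem denom_upper {g : GL (Fin 2) ℝ} (hg10 : g 1 0 = 0) (τ : ℍ) :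
    denom g τ = (g 1 1 : ℂ) := by
  simp [denom, hg10]

theorem IsPrim.comp_upper {φ ψ : ℍ → ℂ} {g : GL (Fin 2) ℝ} (hg : 0 < g.val.det)
    (hg10 : g 1 0 = 0) (h : IsPrim φ ψ) (c c' : ℂ) (hc : c' * (g 0 0 : ℂ) = c * (g 1 1 : ℂ)) :
    IsPrim (fun τ => c * φ (g • τ)) (fun τ => c' * ψ (g • τ)) := by
  have hdet := det_upper hg10
  have ha : (g 0 0 : ℂ) ≠ 0 := by
    intro h0
    have : g 0 0 = 0 := by exact_mod_cast h0
    rw [hdet, this, zero_mul] at hg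
    exact lt_irrefl _ hg
  have hd : (g 1 1 : ℂ) ≠ 0 := by
    intro h0
    have : g 1 1 = 0 := by exact_mod_cast h0
    rw [hdet, this, mul_zero] at hg
    exact lt_irrefl _ hg
  refine ⟨fun τ => ?_, ?_⟩
  · have h1 := (hasDerivAt_comp_smul hg τ (h.1 (g • τ))).const_mul c'
    rw [denom_upper hg10, hdet] at h1
    have h2 : c' * (φ (g • τ) * (((g 0 0 * g 1 1 : ℝ) : ℂ) / (g 1 1 : ℂ) ^ 2)) =
        c * φ (g • τ) := by
      push_cast
      field_simp
      linear_combination (φ (g • τ)) * hc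
    rw [h2] at h1
    exact h1
  · have h1 : Tendsto (fun τ => ψ (g • τ)) atImInfty (𝓝 0) := h.2.comp (tendsto_smul_atImInfty hg10)
    have h2 := h1.const_mul c'
    rw [mul_zero] at h2
    exact h2

/-- towers under upper triangular matrices -/
theorem IsTower.slash_upper {φ : ℍ → ℂ} {J : ℕ → ℍ → ℂ} (w : ℕ) {g : GL (Fin 2) ℝ}
    (hg : 0 < g.val.det) (hg10 : g 1 0 = 0) (hJ : IsTower φ J) :
    IsTower (φ ∣[(w : ℤ) + 2] g) (fun m τ =>
      (g 0 0 : ℂ) ^ (w + 1) * (g 1 1 : ℂ)⁻¹ * ((g 1 1 : ℂ) / (g 0 0 : ℂ)) ^ (m + 1) * J m (g • τ)) := by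
  have hdet := det_upper hg10
  have ha : (g 0 0 : ℂ) ≠ 0 := by
    intro h0
    have : g 0 0 = 0 := by exact_mod_cast h0
    rw [hdet, this, zero_mul] at hg
    exact lt_irrefl _ hg
  have hd : (g 1 1 : ℂ) ≠ 0 := by
    intro h0
    have : g 1 1 = 0 := by exact_mod_cast h0
    rw [hdet, this, mul_zero] at hg
    exact lt_irrefl _ hg
  have hφ : (φ ∣[(w : ℤ) + 2] g) = fun τ => (g 0 0 : ℂ) ^ (w + 1) * (g 1 1 : ℂ)⁻¹ * φ (g • τ) := by
    funext τ
    rw [slash_apply_of_det_pos φ w hg, denom_upper hg10, hdet]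
    push_cast
    rw [mul_pow, pow_succ (g 1 1 : ℂ) (w + 1)]
    field_simp
  refine ⟨?_, fun m => ?_⟩
  · rw [hφ]
    refine hJ.1.comp_upper hg hg10 _ _ ?_
    rw [zero_add, pow_one]
    field_simp
  · refine (hJ.2 m).comp_upper hg hg10 _ _ ?_
    rw [pow_succ _ (m + 1)]
    field_simp

/-- normalisation for upper triangular matrices: the constant is zero -/
theorem Gfun_upper {φ : ℍ → ℂ} {J J' : ℕ → ℍ → ℂ} (w : ℕ) {g : GL (Fin 2) ℝ}
    (hg : 0 < g.val.det) (hg10 : g 1 0 = 0) (hJ : IsTower φ J)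
    (hJ' : IsTower (φ ∣[(w : ℤ) + 2] g) J') (v : ℂ × ℂ) (τ : ℍ) :
    Gfun w J' (act g v) τ = (g.val.det : ℂ) ^ w * Gfun w J v (g • τ) := by
  have hdet := det_upper hg10
  have ha : (g 0 0 : ℂ) ≠ 0 := by
    intro h0
    have : g 0 0 = 0 := by exact_mod_cast h0
    rw [hdet, this, zero_mul] at hg
    exact lt_irrefl _ hg
  have hd : (g 1 1 : ℂ) ≠ 0 := by
    intro h0
    have : g 1 1 = 0 := by exact_mod_cast h0
    rw [hdet, this, mul_zero] at hg
    exact lt_irrefl _ hg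
  rw [hJ'.unique (hJ.slash_upper w hg hg10)]
  simp only [Gfun, Finset.mul_sum]
  refine Finset.sum_congr rfl fun m hm => ?_
  have hm' : m ≤ w := Nat.lt_succ_iff.mp (Finset.mem_range.mp hm)
  obtain ⟨n, rfl⟩ := Nat.exists_eq_add_of_le hm'
  rw [act_linear_form hg, denom_upper hg10, hdet]
  have h1 : (act g v).1 = (g 0 0 : ℂ) * v.1 := by simp [act, hg10]
  rw [h1, Nat.add_sub_cancel_left]
  push_cast
  rw [div_pow, mul_pow, mul_pow, mul_pow, pow_succ (g 0 0 : ℂ) (m + n), pow_succ (g 1 1 : ℂ) m,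
    pow_succ (g 0 0 : ℂ) m, pow_add (g 0 0 : ℂ) m n, pow_add (g 1 1 : ℂ) m n]
  field_simp

end Fermat.Agent.S22
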