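import Fermat.Agent.S22.Defs

/-!
# S22, part A: decaying primitives and towers
-/

set_option autoImplicit false

namespace Fermat.Agent.S22

open UpperHalfPlane Filter Topology
open scoped MatrixGroups ModularForm Manifold

theorem const_of_hasDerivAt_zero {F : ℍ → ℂ} (h : ∀ τ : ℍ, HasDerivAt (F ∘ ofComplex) 0 τ)
    (τ τ' : ℍ) : F τ = F τ' := by
  have hpre : IsPreconnected upperHalfPlaneSet := (convex_halfSpace_im_gt 0).isPreconnected
  have hd : DifferentiableOn ℂ (F ∘ ofComplex) upperHalfPlaneSet := fun z hz =>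
    (h ⟨z, hz⟩).differentiableAt.differentiableWithinAt
  have hd' : Set.EqOn (deriv (F ∘ ofComplex)) 0 upperHalfPlaneSet := fun z hz =>
    (h ⟨z, hz⟩).deriv
  have := isOpen_upperHalfPlaneSet.is_const_of_deriv_eq_zero hpre hd hd'
    (x := (τ : ℂ)) (y := (τ' : ℂ)) τ.im_pos τ'.im_pos
  simpa using this

theorem IsPrim.unique {φ ψ₁ ψ₂ : ℍ → ℂ} (h₁ : IsPrim φ ψ₁) (h₂ : IsPrim φ ψ₂) : ψ₁ = ψ₂ := by
  have hc : ∀ τ τ' : ℍ, (ψ₁ - ψ₂) τ = (ψ₁ - ψ₂) τ' := by
    apply const_of_hasDerivAt_zero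
    intro τ
    have := (h₁.1 τ).sub (h₂.1 τ)
    rw [sub_self] at this
    exact this
  have hz : Tendsto (ψ₁ - ψ₂) atImInfty (𝓝 0) := by
    have := Tendsto.sub h₁.2 h₂.2
    rw [sub_self] at this
    exact this
  funext τ
  have hconst : (ψ₁ - ψ₂) = fun _ => (ψ₁ - ψ₂) τ := funext fun τ' => hc τ' τ
  rw [hconst] at hz
  have := tendsto_nhds_unique hz tendsto_const_nhds
  simpa [sub_eq_zero] using this.symm

theorem IsPrim.mdiff {φ ψ : ℍ → ℂ} (h : IsPrim φ ψ) : MDiff ψ := by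
  rw [UpperHalfPlane.mdifferentiable_iff]
  exact fun z hz => (h.1 ⟨z, hz⟩).differentiableAt.differentiableWithinAt

theorem exists_isPrim {φ : ℍ → ℂ} {h : ℝ} (hh : 0 < h)
    (hper : Function.Periodic (φ ∘ ofComplex) h) (hhol : MDiff φ) (hzero : IsZeroAtImInfty φ) :
    ∃ ψ, IsPrim φ ψ ∧ Function.Periodic (ψ ∘ ofComplex) h := by
  set Φ : ℂ → ℂ := cuspFunction h φ with hΦ
  have hΦd : DifferentiableOn ℂ Φ (Metric.ball 0 1) :=
    differentiableOn_cuspFunction_ball hh hper hhol hzero.isBoundedAtImInfty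
  have hΦ0 : Φ 0 = 0 := hzero.cuspFunction_apply_zero hh
  have hΘd : DifferentiableOn ℂ (dslope Φ 0) (Metric.ball 0 1) :=
    (Complex.differentiableOn_dslope (Metric.ball_mem_nhds 0 one_pos)).mpr hΦd
  obtain ⟨Ψ, hΨ0, hΨ⟩ := hΘd.isExactOn_ball.with_val_at 0 0
  have hc : (2 * (Real.pi : ℂ) * Complex.I) ≠ 0 := Complex.two_pi_I_ne_zero
  have hhc : (h : ℂ) ≠ 0 := by exact_mod_cast hh.ne'
  refine ⟨fun τ => (h / (2 * Real.pi * Complex.I)) * Ψ (Function.Periodic.qParam h τ),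
    ⟨fun τ => ?_, ?_⟩, ?_⟩
  · -- derivative
    set q := Function.Periodic.qParam h (τ : ℂ) with hq
    have hqball : q ∈ Metric.ball (0 : ℂ) 1 := by
      rw [mem_ball_zero_iff]
      exact Function.Periodic.norm_qParam_lt_one hh τ.im_pos
    have hq0 : q ≠ 0 := Function.Periodic.qParam_ne_zero _
    have qdiff : HasDerivAt (Function.Periodic.qParam h) (q * (2 * Real.pi * Complex.I / h)) τ := by
      have := (((hasDerivAt_id (τ : ℂ)).const_mul (2 * Real.pi * Complex.I)).div_const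
        (h : ℂ)).cexp
      simpa only [id_eq, mul_one] using! this
    have h1 : HasDerivAt (fun z : ℂ => (h / (2 * Real.pi * Complex.I)) *
        Ψ (Function.Periodic.qParam h z))
        ((h / (2 * Real.pi * Complex.I)) * (dslope Φ 0 q * (q * (2 * Real.pi * Complex.I / h))))
        τ := ((hΨ q hqball).comp (τ : ℂ) qdiff).const_mul _
    have hval : (h / (2 * Real.pi * Complex.I)) *
        (dslope Φ 0 q * (q * (2 * Real.pi * Complex.I / h))) = φ τ := by
      rw [dslope_of_ne _ hq0, slope_def_field, hΦ0, sub_zero, sub_zero]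
      have : Φ q = φ τ := eq_cuspFunction τ hh.ne' hper
      rw [this]
      field_simp
    rw [hval] at h1
    refine h1.congr_of_eventuallyEq ?_
    filter_upwards [isOpen_upperHalfPlaneSet.mem_nhds τ.im_pos] with z hz
    simp only [Function.comp_apply, ofComplex_apply_of_im_pos hz]
  · -- zero at infinity
    have hcont : ContinuousAt Ψ 0 := (hΨ 0 (Metric.mem_ball_self one_pos)).continuousAt
    have h1 : Tendsto (fun τ : ℍ => Ψ (Function.Periodic.qParam h τ)) atImInfty (𝓝 (Ψ 0)) :=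
      hcont.tendsto.comp (qParam_tendsto_atImInfty hh)
    have h2 := h1.const_mul ((h : ℂ) / (2 * Real.pi * Complex.I))
    rw [hΨ0, mul_zero] at h2
    exact h2
  · -- periodicity
    intro w
    by_cases hw : 0 < w.im
    · have hw' : 0 < (w + h).im := by simpa using hw
      simp only [Function.comp_apply, ofComplex_apply_of_im_pos hw, ofComplex_apply_of_im_pos hw']
      congr 2
      simp only [Function.Periodic.qParam]
      rw [mul_add, add_div, Complex.exp_add, mul_div_cancel_right₀ _ hhc, Complex.exp_two_pi_mul_I,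
        mul_one]
    · have hw1 : w.im ≤ 0 := not_lt.mp hw
      have hw' : (w + h).im ≤ 0 := by simpa using hw1
      simp only [Function.comp_apply, ofComplex_apply_of_im_nonpos hw1,
        ofComplex_apply_of_im_nonpos hw']

theorem IsTower.unique {φ : ℍ → ℂ} {J J' : ℕ → ℍ → ℂ} (h : IsTower φ J) (h' : IsTower φ J') :
    J = J' := by
  funext m
  induction m with
  | zero => exact h.1.unique h'.1
  | succ m ih =>
    have h1 := h.2 m
    have h2 := h'.2 m
    rw [ih] at h1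
    exact h1.unique h2

theorem hasTower_of_periodic {φ : ℍ → ℂ} {h : ℝ} (hh : 0 < h)
    (hper : Function.Periodic (φ ∘ ofComplex) h) (hhol : MDiff φ) (hzero : IsZeroAtImInfty φ) :
    ∃ J, IsTower φ J ∧ ∀ m, Function.Periodic (J m ∘ ofComplex) h := by
  classical
  -- the type of admissible functions
  let T := {ψ : ℍ → ℂ // Function.Periodic (ψ ∘ ofComplex) h ∧ MDiff ψ ∧ IsZeroAtImInfty ψ}
  have step : ∀ ψ : T, ∃ ψ' : T, IsPrim ψ.1 ψ'.1 := by
    intro ψ
    obtain ⟨ψ', h1, h2⟩ := exists_isPrim hh ψ.2.1 ψ.2.2.1 ψ.2.2.2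
    exact ⟨⟨ψ', h2, h1.mdiff, h1.2⟩, h1⟩
  choose nxt hnxt using step
  let J : ℕ → T := fun m => Nat.rec (nxt ⟨φ, hper, hhol, hzero⟩) (fun _ ψ => nxt ψ) m
  refine ⟨fun m => (J m).1, ⟨hnxt _, fun m => hnxt (J m)⟩, fun m => (J m).2.1⟩

theorem HasTower.isTower {φ : ℍ → ℂ} (h : HasTower φ) : IsTower φ (tower φ) := by
  unfold tower
  rw [dif_pos h]
  exact h.choose_spec

theorem IsTower.tower_eq {φ : ℍ → ℂ} {J : ℕ → ℍ → ℂ} (h : IsTower φ J) : tower φ = J :=
  (HasTower.isTower ⟨J, h⟩).unique h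

theorem IsPrim.add {φ φ' ψ ψ' : ℍ → ℂ} (h : IsPrim φ ψ) (h' : IsPrim φ' ψ') :
    IsPrim (φ + φ') (ψ + ψ') := by
  refine ⟨fun τ => ?_, ?_⟩
  · exact (h.1 τ).add (h'.1 τ)
  · have := Tendsto.add h.2 h'.2
    rw [add_zero] at this
    exact this

theorem IsPrim.smul {φ ψ : ℍ → ℂ} (c : ℂ) (h : IsPrim φ ψ) : IsPrim (c • φ) (c • ψ) := by
  refine ⟨fun τ => ?_, ?_⟩
  · exact (h.1 τ).const_smul c
  · have := Tendsto.const_smul h.2 c
    rw [smul_zero] at this
    exact this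

theorem isPrim_zero : IsPrim 0 0 := by
  refine ⟨fun τ => ?_, ?_⟩
  · exact hasDerivAt_const _ _
  · exact tendsto_const_nhds

theorem IsTower.add {φ φ' : ℍ → ℂ} {J J' : ℕ → ℍ → ℂ} (h : IsTower φ J) (h' : IsTower φ' J') :
    IsTower (φ + φ') (J + J') :=
  ⟨h.1.add h'.1, fun m => (h.2 m).add (h'.2 m)⟩

theorem IsTower.smul {φ : ℍ → ℂ} {J : ℕ → ℍ → ℂ} (c : ℂ) (h : IsTower φ J) :
    IsTower (c • φ) (c • J) :=
  ⟨h.1.smul c, fun m => (h.2 m).smul c⟩

theorem isTower_zero : IsTower 0 0 := ⟨isPrim_zero, fun _ => isPrim_zero⟩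

theorem IsTower.sum {ι : Type*} (s : Finset ι) {φ : ι → ℍ → ℂ} {J : ι → ℕ → ℍ → ℂ}
    (h : ∀ i ∈ s, IsTower (φ i) (J i)) : IsTower (∑ i ∈ s, φ i) (∑ i ∈ s, J i) := by
  classical
  induction s using Finset.induction_on with
  | empty => simpa using isTower_zero
  | insert a s ha ih =>
    rw [Finset.sum_insert ha, Finset.sum_insert ha]
    exact (h a (Finset.mem_insert_self a s)).add
      (ih fun i hi => h i (Finset.mem_insert_of_mem hi))

theorem IsPrim.eq_zero_of_eq_zero {φ ψ : ℍ → ℂ} (h : IsPrim φ ψ) (hψ : ψ = 0) : φ = 0 := by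
  funext τ
  have h1 := h.1 τ
  rw [hψ] at h1
  have h2 : HasDerivAt ((0 : ℍ → ℂ) ∘ ofComplex) 0 τ := hasDerivAt_const _ _
  exact h1.unique h2

/-- if the `w`-th primitive vanishes then so does `φ` -/
theorem IsTower.eq_zero_of_eq_zero {φ : ℍ → ℂ} {J : ℕ → ℍ → ℂ} (h : IsTower φ J) (w : ℕ)
    (hw : J w = 0) : φ = 0 := by
  induction w with
  | zero => exact h.1.eq_zero_of_eq_zero hw
  | succ w ih => exact ih ((h.2 w).eq_zero_of_eq_zero hw)

end Fermat.Agent.S22
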